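/-
S56 / ORD, leaf COH-COKER.  If `H¹(B) = 0` then `H¹(A) = coker (H⁰(B) → H⁰(C))`.  S55/Coh only.
-/
import Fermat.Agent.S55.Coh.LESExact

set_option autoImplicit false

namespace Fermat.Agent.S56.Ord

open Fermat.Agent.S55

variable {G : Type} [Group G] {𝓝 : LevelSys G}
variable {A : Type} [AddCommGroup A] [DistribMulAction G A]
variable {B : Type} [AddCommGroup B] [DistribMulAction G B]
variable {C : Type} [AddCommGroup C] [DistribMulAction G C]
variable {φ : A →+[G] B} {ψ : B →+[G] C}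

theorem card_H1_eq_index [Smooth 𝓝 B] (h : ShortExact φ ψ) (h0 : ∀ y : Hsm 𝓝 B 1, y = 0) :
    Nat.card (Hsm 𝓝 A 1) = (Hsm.map (𝓝 := 𝓝) ψ 0).range.index := by
  have hsurj : Function.Surjective (Hsm.delta (𝓝 := 𝓝) h 0) := Hsm.delta_surjective h 0 h0
  have hker : (Hsm.delta (𝓝 := 𝓝) h 0).ker = (Hsm.map (𝓝 := 𝓝) ψ 0).range := by
    ext y
    rw [AddMonoidHom.mem_ker, AddMonoidHom.mem_range]
    exact Hsm.exact_map_delta h 0 y
  rw [← hker, AddSubgroup.index_eq_card]
  exact (Nat.card_congr (QuotientAddGroup.quotientKerEquivOfSurjective _ hsurj).toEquiv).symm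

end Fermat.Agent.S56.Ord
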