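/-
S56 / ORD, leaf COH-COUNT.  Abstract counting in the long exact sequence of `0 → A → B → C → 0`:
`#im(H¹(A) → H¹(B)) · #H⁰(C) ≤ #H¹(A) · #H⁰(B)`.   S55/Coh only.   (proof: helper266)
-/
import Fermat.Agent.S55.Coh.LESExact

set_option autoImplicit false

namespace Fermat.Agent.S56.Ord

open Fermat.Agent.S55

private theorem Count_card_eq {X Y : Type} [AddCommGroup X] [AddCommGroup Y] (f : X →+ Y) :
    Nat.card X = Nat.card f.ker * Nat.card f.range := by
  rw [← AddSubgroup.index_ker, AddSubgroup.card_mul_index]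

private theorem Count_abstract {X Y Z W : Type} [AddCommGroup X] [AddCommGroup Y] [AddCommGroup Z]
    [AddCommGroup W] [Finite X] (f : X →+ Y) (g : Y →+ Z) (h : Z →+ W)
    (hfg : Function.Exact f g) (hgh : Function.Exact g h) :
    Nat.card h.range * Nat.card Y ≤ Nat.card Z * Nat.card X := by
  have h1 : h.ker = g.range := by
    ext z
    rw [AddMonoidHom.mem_ker, AddMonoidHom.mem_range]
    exact hgh z
  have h2 : g.ker = f.range := by
    ext y
    rw [AddMonoidHom.mem_ker, AddMonoidHom.mem_range]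
    exact hfg y
  have h3 : Nat.card f.range ≤ Nat.card X :=
    Nat.card_le_card_of_surjective f.rangeRestrict f.rangeRestrict_surjective
  rw [Count_card_eq g, Count_card_eq h, h1, h2]
  calc Nat.card h.range * (Nat.card f.range * Nat.card g.range)
      = Nat.card g.range * Nat.card h.range * Nat.card f.range := by ring
    _ ≤ Nat.card g.range * Nat.card h.range * Nat.card X := Nat.mul_le_mul_left _ h3

variable {G : Type} [Group G] {𝓝 : LevelSys G}
variable {A : Type} [AddCommGroup A] [DistribMulAction G A]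
variable {B : Type} [AddCommGroup B] [DistribMulAction G B]
variable {C : Type} [AddCommGroup C] [DistribMulAction G C]
variable {φ : A →+[G] B} {ψ : B →+[G] C}

theorem card_range_mul_le [Smooth 𝓝 B] (h : ShortExact φ ψ) [Finite (Hsm 𝓝 A 1)]
    [Finite (Hsm 𝓝 B 0)] [Finite (Hsm 𝓝 C 0)] :
    Nat.card (Hsm.map (𝓝 := 𝓝) φ 1).range * Nat.card (Hsm 𝓝 C 0) ≤
      Nat.card (Hsm 𝓝 A 1) * Nat.card (Hsm 𝓝 B 0) :=
  Count_abstract (Hsm.map (𝓝 := 𝓝) ψ 0) (Hsm.delta h 0) (Hsm.map (𝓝 := 𝓝) φ 1)
    (Hsm.exact_map_delta h 0) (Hsm.exact_delta_map h 0)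

end Fermat.Agent.S56.Ord
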