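/-
S56 / ORD, leaf COH-FIXLOC.  `H⁰`: finiteness, and `#H⁰_q(A) = #fixLoc A q`.

(`fixLoc` was removed from `S56/Interface.lean` (v2 uses `Hloc q A 0` directly); it is defined here, with the
definition of Interface v1.)
-/
import Fermat.Agent.S56.Interface

set_option autoImplicit false

namespace Fermat.Agent.S56.Ord

open Fermat.Agent.S55

/-- The invariants of the decomposition group at `q` (`= H⁰_q(A)`). -/
def fixLoc (A : Type) [AddCommGroup A] [DistribMulAction GQ A] (q : Nat.Primes) : AddSubgroup A where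
  carrier := {a | ∀ g : Gv q, ιv q g • a = a}
  zero_mem' := fun g => smul_zero _
  add_mem' := fun {a b} ha hb g => by rw [smul_add, ha g, hb g]
  neg_mem' := fun {a} ha g => by rw [smul_neg, ha g]

theorem finite_H0 {G : Type} [Group G] (𝓝 : LevelSys G) (A : Type) [AddCommGroup A]
    [DistribMulAction G A] [Finite A] : Finite (Hsm 𝓝 A 0) :=
  Finite.of_equiv (inv0 G A) (Hsm.H0equiv (𝓝 := 𝓝) (A := A)).symm.toEquiv

theorem card_H0_eq_fixLoc (q : Nat.Primes) (A : Type) [AddCommGroup A] [DistribMulAction GQ A] :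
    Nat.card (Hloc q A 0) = Nat.card (fixLoc A q) := by
  let e : inv0 (Gv q) (ResMod (ιv q) A) ≃ fixLoc A q :=
    { toFun := fun a => ⟨a.1, a.2⟩
      invFun := fun a => ⟨a.1, a.2⟩
      left_inv := fun _ => rfl
      right_inv := fun _ => rfl }
  exact Nat.card_congr ((Hsm.H0equiv (𝓝 := lvlLoc q) (A := ResMod (ιv q) A)).toEquiv.trans e)

end Fermat.Agent.S56.Ord
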