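/-
S56 / ORD, leaf COH-MID.  `#Hⁿ(B) ≤ #Hⁿ(A) · #Hⁿ(C)` for `0 → A → B → C → 0`.  S55/Coh only.
-/
import Fermat.Agent.S55.Coh.LESExact

set_option autoImplicit false

namespace Fermat.Agent.S56.Ord

open Fermat.Agent.S55

private theorem Mid_abs {X Y Z : Type*} [AddCommGroup X] [AddCommGroup Y] [AddCommGroup Z]
    (f : X →+ Y) (g : Y →+ Z) (h : Function.Exact f g) [Finite X] [Finite Z] :
    Finite Y ∧ Nat.card Y ≤ Nat.card X * Nat.card Z := by
  classical
  let s : Z → Y := fun z => if hz : ∃ y, g y = z then hz.choose else 0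
  have hs : ∀ y, g (s (g y)) = g y := fun y => by
    have hz : ∃ y', g y' = g y := ⟨y, rfl⟩
    simp only [s, dif_pos hz]
    exact hz.choose_spec
  have hx : ∀ y, ∃ x, f x = y - s (g y) := fun y => (h _).1 (by rw [map_sub, hs, sub_self])
  choose t ht using hx
  let F : Y → X × Z := fun y => (t y, g y)
  have hF : Function.Injective F := by
    intro y y' hyy
    have h1 : t y = t y' := congrArg Prod.fst hyy
    have h2 : g y = g y' := congrArg Prod.snd hyy
    have e1 : y = f (t y) + s (g y) := by rw [ht y, sub_add_cancel]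
    have e2 : y' = f (t y') + s (g y') := by rw [ht y', sub_add_cancel]
    rw [e1, e2, h1, h2]
  refine ⟨Finite.of_injective F hF, ?_⟩
  rw [← Nat.card_prod]
  exact Nat.card_le_card_of_injective F hF

variable {G : Type} [Group G] {𝓝 : LevelSys G}
variable {A : Type} [AddCommGroup A] [DistribMulAction G A]
variable {B : Type} [AddCommGroup B] [DistribMulAction G B]
variable {C : Type} [AddCommGroup C] [DistribMulAction G C]
variable {φ : A →+[G] B} {ψ : B →+[G] C}

theorem finite_and_card_mid_le [Smooth 𝓝 B] (h : ShortExact φ ψ) (n : ℕ)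
    (hA : Finite (Hsm 𝓝 A n)) (hC : Finite (Hsm 𝓝 C n)) :
    Finite (Hsm 𝓝 B n) ∧
      Nat.card (Hsm 𝓝 B n) ≤ Nat.card (Hsm 𝓝 A n) * Nat.card (Hsm 𝓝 C n) :=
  Mid_abs (Hsm.map (𝓝 := 𝓝) φ n) (Hsm.map ψ n) (Hsm.exact_map_map h n)

end Fermat.Agent.S56.Ord
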