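/-
S56 / ORD, leaf COH-RANKONE.  Two `G`-modules of prime order `p` on which `G` acts "through the
same character" are isomorphic.  Mathlib only.
-/
import Mathlib

set_option autoImplicit false

namespace Fermat.Agent.S56.Ord

variable {G : Type} [Group G]

/-- On a module of prime order every group element acts as a multiplication by an integer. -/
theorem exists_smul_eq_nsmul (p : ℕ) (hp : p.Prime) (Z : Type) [AddCommGroup Z]
    [DistribMulAction G Z] (hZ : Nat.card Z = p) (g : G) : ∃ a : ℕ, ∀ z : Z, g • z = a • z := by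
  have : Fact p.Prime := ⟨hp⟩
  have hfin : Finite Z := Nat.finite_of_card_ne_zero (by rw [hZ]; exact hp.ne_zero)
  have hnt : Nontrivial Z := Finite.one_lt_card_iff_nontrivial.1 (by rw [hZ]; exact hp.one_lt)
  obtain ⟨ζ, hζ⟩ := exists_ne (0 : Z)
  obtain ⟨a, ha⟩ := (AddSubmonoid.mem_multiples_iff _ _).1 (mem_multiples_of_prime_card hZ hζ (g' := g • ζ))
  refine ⟨a, fun z => ?_⟩
  obtain ⟨n, rfl⟩ := (AddSubmonoid.mem_multiples_iff _ _).1 (mem_multiples_of_prime_card hZ hζ (g' := z))
  rw [smul_comm g n ζ, ← ha, smul_comm a n ζ]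

theorem exists_bijective_of_card (p : ℕ) (hp : p.Prime) (Z F : Type) [AddCommGroup Z]
    [DistribMulAction G Z] [AddCommGroup F] [DistribMulAction G F] (hZ : Nat.card Z = p)
    (hFc : Nat.card F = p)
    (hF : ∀ (g : G) (a : ℕ), (∀ z : Z, g • z = a • z) → ∀ x : F, g • x = a • x) :
    ∃ φ : Z →+[G] F, Function.Bijective φ := by
  have : Fact p.Prime := ⟨hp⟩
  have hcZ : IsAddCyclic Z := isAddCyclic_of_prime_card hZ
  have hcF : IsAddCyclic F := isAddCyclic_of_prime_card hFc
  let φ : Z ≃+ F := (zmodAddCyclicAddEquiv hcZ).symm.trans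
    ((ZMod.ringEquivCongr (hZ.trans hFc.symm)).toAddEquiv.trans (zmodAddCyclicAddEquiv hcF))
  refine ⟨{ toFun := φ, map_smul' := ?_, map_zero' := map_zero φ, map_add' := map_add φ },
    φ.bijective⟩
  intro g z
  obtain ⟨a, ha⟩ := exists_smul_eq_nsmul p hp Z hZ g
  simp only [MonoidHom.id_apply]
  rw [ha z, hF g a ha (φ z), map_nsmul]

end Fermat.Agent.S56.Ord
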