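/-
S56 / ORD, node COH-ISOTYPIC.  Devissage: if `G` acts on the finite `F_p`-module `F` through the
character of the module `Z` of order `p`, then `#H¹(F) ≤ (#H¹(Z))^d`, `#F = p^d`.
Induction on `d`: `B = ℤ x` (`x ≠ 0`) is stable, `B ≅ Z` (COH-RANKONE), `F/B` has order `p^(d-1)`,
and `#H¹(F) ≤ #H¹(B) #H¹(F/B)` (COH-MID).
-/
import Fermat.Agent.S56.Ord.Coh.Mid
import Fermat.Agent.S56.Ord.Coh.RankOne
import Fermat.Agent.S55.Coh.IndMaps

set_option autoImplicit false

namespace Fermat.Agent.S56.Ord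

open Fermat.Agent.S55

variable {G : Type} [Group G]

theorem shortExact_gsub {A : Type} [AddCommGroup A] [DistribMulAction G A] (B : GSub G A) :
    ShortExact B.inclG B.projG where
  inj := B.inclG_injective
  exact b := by
    rw [GSub.projG_apply, GSub.proj_eq_zero_iff]
    exact ⟨fun hb => ⟨B.mkMod b hb, rfl⟩, by rintro ⟨a, rfl⟩; exact B.incl_mem a⟩
  surj := B.projG_surjective

/-- The cohomology of a trivial module is trivial. -/
private theorem Isotypic.subsingleton_Hsm (𝓝 : LevelSys G) (F : Type) [AddCommGroup F]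
    [DistribMulAction G F] [Subsingleton F] (n : ℕ) : Subsingleton (Hsm 𝓝 F n) := by
  refine ⟨fun x y => ?_⟩
  obtain ⟨z, rfl⟩ := Hsm.mk_surjective n x
  obtain ⟨w, rfl⟩ := Hsm.mk_surjective n y
  congr 1
  apply Subtype.ext
  funext g
  exact Subsingleton.elim _ _

theorem card_H1_le_of_isotypic (𝓝 : LevelSys G) (p : ℕ) (hp : p.Prime) (Z : Type) [AddCommGroup Z]
    [DistribMulAction G Z] (hZ : Nat.card Z = p) (K : ℕ) (hfin : Finite (Hsm 𝓝 Z 1))
    (hK : Nat.card (Hsm 𝓝 Z 1) ≤ K) (d : ℕ) :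
    ∀ (F : Type) [AddCommGroup F] [DistribMulAction G F] [Smooth 𝓝 F],
      (∀ x : F, p • x = 0) →
      (∀ (g : G) (a : ℕ), (∀ z : Z, g • z = a • z) → ∀ x : F, g • x = a • x) →
      Nat.card F = p ^ d →
      Finite (Hsm 𝓝 F 1) ∧ Nat.card (Hsm 𝓝 F 1) ≤ K ^ d := by
  induction d with
  | zero =>
    intro F _ _ _ _ _ hc
    rw [pow_zero] at hc
    have : Subsingleton F := (Nat.card_eq_one_iff_unique.1 hc).1
    have := Isotypic.subsingleton_Hsm 𝓝 F 1
    refine ⟨inferInstance, ?_⟩
    rw [pow_zero]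
    exact Finite.card_le_one_iff_subsingleton.2 inferInstance
  | succ d ih =>
    intro F _ _ _ hpF hF hc
    have : Finite F := Nat.finite_of_card_ne_zero (by rw [hc]; exact pow_ne_zero _ hp.ne_zero)
    have hne : ∃ x : F, x ≠ 0 := by
      by_contra hcon
      push Not at hcon
      have : Subsingleton F := ⟨fun a b => by rw [hcon a, hcon b]⟩
      have h1 : Nat.card F = 1 := Nat.card_of_subsingleton 0
      rw [hc] at h1
      have h2 : p ∣ 1 := by
        rw [← h1]
        exact dvd_pow_self p (Nat.succ_ne_zero d)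
      exact hp.one_lt.ne' (Nat.dvd_one.1 h2)
    obtain ⟨x, hx⟩ := hne
    let B : GSub G F :=
      { toAddSubgroup := AddSubgroup.zmultiples x
        smul_mem' := by
          intro g y hy
          obtain ⟨a, ha⟩ := exists_smul_eq_nsmul p hp Z hZ g
          rw [hF g a ha y]
          exact AddSubgroup.nsmul_mem _ hy a }
    have hBc : Nat.card B.Mod = p := by
      change Nat.card (AddSubgroup.zmultiples x) = p
      rw [Nat.card_zmultiples]
      have : Fact p.Prime := ⟨hp⟩
      exact addOrderOf_eq_prime (hpF x) hx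
    have hBF : ∀ (g : G) (a : ℕ), (∀ z : Z, g • z = a • z) → ∀ y : B.Mod, g • y = a • y := by
      intro g a ha y
      apply B.incl_injective
      rw [GSub.incl_smul, map_nsmul]
      exact hF g a ha _
    obtain ⟨φ, hφ⟩ := exists_bijective_of_card p hp Z B.Mod hZ hBc hBF
    have hbij := Hsm.map_bijective (𝓝 := 𝓝) hφ 1
    have hfinB : Finite (Hsm 𝓝 B.Mod 1) := Finite.of_equiv _ (Equiv.ofBijective _ hbij)
    have hcardB : Nat.card (Hsm 𝓝 B.Mod 1) ≤ K := by
      rw [← Nat.card_congr (Equiv.ofBijective _ hbij)]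
      exact hK
    have hQp : ∀ y : B.Quot, p • y = 0 := by
      intro y
      obtain ⟨a, rfl⟩ := B.proj_surjective y
      rw [← map_nsmul, hpF, map_zero]
    have hQF : ∀ (g : G) (a : ℕ), (∀ z : Z, g • z = a • z) → ∀ y : B.Quot, g • y = a • y := by
      intro g a ha y
      obtain ⟨b, rfl⟩ := B.proj_surjective y
      rw [← GSub.proj_smul, hF g a ha b, map_nsmul]
    have hQc : Nat.card B.Quot = p ^ d := by
      have h1 := AddSubgroup.card_eq_card_quotient_mul_card_addSubgroup (AddSubgroup.zmultiples x)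
      have h2 : Nat.card (AddSubgroup.zmultiples x) = p := hBc
      rw [hc, h2, pow_succ] at h1
      exact (Nat.eq_of_mul_eq_mul_right hp.pos h1).symm
    obtain ⟨hfinQ, hcardQ⟩ := ih B.Quot hQp hQF hQc
    obtain ⟨h1, h2⟩ := finite_and_card_mid_le (𝓝 := 𝓝) (shortExact_gsub B) 1 hfinB hfinQ
    refine ⟨h1, h2.trans ?_⟩
    rw [pow_succ, mul_comm]
    exact Nat.mul_le_mul hcardQ hcardB

end Fermat.Agent.S56.Ord
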