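/-
S56 / ORD, leaf COH-MEMRANGE.  A cocycle which, up to a coboundary, takes its values in a stable
subgroup `B` has its class in the image of `H¹(B)`.
-/
import Fermat.Agent.S56.Defs

set_option autoImplicit false

namespace Fermat.Agent.S56.Ord

open Fermat.Agent.S55

variable {G : Type} [Group G] {𝓝 : LevelSys G} {A : Type} [AddCommGroup A] [DistribMulAction G A]

/-- The cocycle `g ↦ c g + (g • m - m)` with values in `B`. -/
def MemRange_coc [Smooth 𝓝 A] (B : GSub G A) (c : Coc 𝓝 A) (m : A)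
    (h : ∀ g, c g + (g • m - m) ∈ B.toAddSubgroup) : Coc 𝓝 B.Mod where
  toFun g := B.mkMod (c g + (g • m - m)) (h g)
  map_mul' g k := by
    apply B.incl_injective
    rw [map_add, GSub.incl_smul, GSub.incl_mkMod, GSub.incl_mkMod, GSub.incl_mkMod, c.map_mul,
      mul_smul, smul_add, smul_sub]
    abel
  level' := by
    obtain ⟨N, hN, hc⟩ := c.level
    obtain ⟨N', hN', hm⟩ := Smooth.exists_fix (𝓝 := 𝓝) m
    obtain ⟨N'', hN'', hle⟩ := 𝓝.directed N hN N' hN'
    refine ⟨N'', hN'', fun g n hn => ?_⟩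
    apply B.incl_injective
    rw [GSub.incl_mkMod, GSub.incl_mkMod, hc g n (hle hn).1, mul_smul, hm n (hle hn).2]

theorem cls_mem_range [Smooth 𝓝 A] (B : GSub G A) (c : Coc 𝓝 A) (m : A)
    (h : ∀ g, c g + (g • m - m) ∈ B.toAddSubgroup) :
    c.cls ∈ (Hsm.map (𝓝 := 𝓝) B.inclG 1).range := by
  refine ⟨(MemRange_coc B c m h).cls, ?_⟩
  have h1 : Hsm.map (𝓝 := 𝓝) B.inclG 1 (MemRange_coc B c m h).cls =
      (Coc.ofZsm (Zsm.map B.inclG 1 (MemRange_coc B c m h).toZsm)).cls := by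
    rw [Coc.cls, Coc.cls, Hsm.map_mk, Coc.toZsm_ofZsm]
  rw [h1, Coc.cls_eq_cls_iff]
  refine ⟨m, fun g => ?_⟩
  change c g + (g • m - m) - c g = g • m - m
  abel

end Fermat.Agent.S56.Ord
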